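import Mathlib
import Fermat.Agent.S28.RatFuncEval

/-!
# P-S28 WP-B, piece G2 (helper25): orders of polynomial / rational expressions in a Laurent series
-/

set_option autoImplicit false

noncomputable section

open Polynomial HahnSeries

namespace Fermat.Agent.S28

variable {k : Type*} [Field k]

namespace CruxOrder

theorem algebraMap_eq_single (c : k) :
    algebraMap k (LaurentSeries k) c = HahnSeries.single 0 c := by
  have h1 : algebraMap k (PowerSeries k) c = PowerSeries.C c := by simp
  rw [HahnSeries.algebraMap_apply', h1, HahnSeries.ofPowerSeries_C]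
  rfl

theorem orderTop_algebraMap {a : k} (ha : a ≠ 0) :
    (algebraMap k (LaurentSeries k) a).orderTop = 0 := by
  rw [algebraMap_eq_single]
  exact orderTop_single ha

theorem ne_zero_of_order_ne_zero {x : LaurentSeries k} (hx : x.order ≠ 0) : x ≠ 0 := by
  rintro rfl
  exact hx order_zero

theorem orderTop_eq_order {x : LaurentSeries k} (hx : x ≠ 0) :
    x.orderTop = (x.order : WithTop ℤ) :=
  (order_eq_orderTop_of_ne_zero hx).symm

/-- order of a monomial `algebraMap a * x ^ i`. -/
theorem orderTop_algebraMap_mul_pow {x : LaurentSeries k} (hx : x ≠ 0) {a : k} (ha : a ≠ 0)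
    (i : ℕ) :
    (algebraMap k (LaurentSeries k) a * x ^ i).orderTop = ((i * x.order : ℤ) : WithTop ℤ) := by
  rw [orderTop_mul, orderTop_algebraMap ha, zero_add,
    orderTop_eq_order (pow_ne_zero i hx), order_pow, nsmul_eq_mul]

theorem orderTop_term_zero (x : LaurentSeries k) (i : ℕ) :
    (algebraMap k (LaurentSeries k) 0 * x ^ i).orderTop = ⊤ := by
  simp

theorem lt_orderTop_sum {ι : Type*} (s : Finset ι) (f : ι → LaurentSeries k) (g : WithTop ℤ)
    (hg : g ≠ ⊤) (h : ∀ i ∈ s, g < (f i).orderTop) : g < (∑ i ∈ s, f i).orderTop := by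
  classical
  induction s using Finset.induction_on with
  | empty => simpa using lt_top_iff_ne_top.mpr hg
  | insert a s ha ih =>
    rw [Finset.sum_insert ha]
    refine lt_of_lt_of_le (lt_min (h a (Finset.mem_insert_self a s)) (ih fun i hi => ?_))
      min_orderTop_le_orderTop_add
    exact h i (Finset.mem_insert_of_mem hi)

/-- order of a term `algebraMap a * x ^ i` is either `⊤` or `i * order x`. -/
theorem orderTop_term (x : LaurentSeries k) (hx : x ≠ 0) (a : k) (i : ℕ) :
    (algebraMap k (LaurentSeries k) a * x ^ i).orderTop = ⊤ ∨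
      (algebraMap k (LaurentSeries k) a * x ^ i).orderTop = ((i * x.order : ℤ) : WithTop ℤ) := by
  by_cases ha : a = 0
  · left; rw [ha]; exact orderTop_term_zero x i
  · right; exact orderTop_algebraMap_mul_pow hx ha i

theorem orderTop_aeval_of_order_neg (x : LaurentSeries k) (hx : x.order < 0) (A : k[X])
    (hA : A ≠ 0) :
    (aeval x A).orderTop = ((A.natDegree * x.order : ℤ) : WithTop ℤ) := by
  have hx0 : x ≠ 0 := ne_zero_of_order_ne_zero hx.ne
  rw [aeval_def, eval₂_eq_sum_range, Finset.sum_range_succ]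
  have hlead : (algebraMap k (LaurentSeries k) (A.coeff A.natDegree) * x ^ A.natDegree).orderTop
      = ((A.natDegree * x.order : ℤ) : WithTop ℤ) :=
    orderTop_algebraMap_mul_pow hx0 (by simpa using hA) _
  rw [orderTop_add_eq_right, hlead]
  rw [hlead]
  refine lt_orderTop_sum _ _ _ (WithTop.coe_ne_top) fun i hi => ?_
  rcases orderTop_term x hx0 (A.coeff i) i with h | h
  · rw [h]; exact WithTop.coe_lt_top _
  · rw [h, WithTop.coe_lt_coe]
    have hi' : (i : ℤ) < A.natDegree := by exact_mod_cast Finset.mem_range.mp hi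
    nlinarith

theorem orderTop_aeval_of_order_pos_of_coeff_zero_ne (x : LaurentSeries k) (hx : 0 < x.order)
    (B : k[X]) (hB : B.coeff 0 ≠ 0) : (aeval x B).orderTop = 0 := by
  have hx0 : x ≠ 0 := ne_zero_of_order_ne_zero hx.ne'
  rw [aeval_def, eval₂_eq_sum_range, Finset.sum_range_succ']
  have h0 : (algebraMap k (LaurentSeries k) (B.coeff 0) * x ^ 0).orderTop = 0 := by
    simpa using orderTop_algebraMap_mul_pow hx0 hB 0
  rw [orderTop_add_eq_right, h0]
  rw [h0]
  refine lt_orderTop_sum _ _ _ (by simp) fun i _ => ?_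
  rcases orderTop_term x hx0 (B.coeff (i + 1)) (i + 1) with h | h
  · rw [h]; exact lt_top_iff_ne_top.mpr (by simp)
  · rw [h, ← WithTop.coe_zero, WithTop.coe_lt_coe]
    positivity

theorem orderTop_aeval_of_order_pos (x : LaurentSeries k) (hx : 0 < x.order) (A : k[X])
    (hA : A ≠ 0) :
    (aeval x A).orderTop = ((A.rootMultiplicity 0 * x.order : ℤ) : WithTop ℤ) := by
  have hx0 : x ≠ 0 := ne_zero_of_order_ne_zero hx.ne'
  obtain ⟨B, hAB, hB⟩ := exists_eq_pow_rootMultiplicity_mul_and_not_dvd A hA 0
  rw [C_0, sub_zero] at hAB hB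
  have hB0 : B.coeff 0 ≠ 0 := fun h => hB (X_dvd_iff.mpr h)
  conv_lhs => rw [hAB]
  rw [map_mul, map_pow, aeval_X, orderTop_mul,
    orderTop_aeval_of_order_pos_of_coeff_zero_ne x hx B hB0, add_zero,
    orderTop_eq_order (pow_ne_zero _ hx0), order_pow, nsmul_eq_mul]

end CruxOrder

open CruxOrder

theorem aeval_ne_zero_of_order_ne_zero (x : LaurentSeries k) (hx : x.order ≠ 0) (A : k[X])
    (hA : A ≠ 0) : aeval x A ≠ 0 := by
  intro h
  rcases lt_or_gt_of_ne hx with h' | h'
  · have := orderTop_aeval_of_order_neg x h' A hA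
    rw [h, orderTop_zero] at this
    exact WithTop.top_ne_coe this
  · have := orderTop_aeval_of_order_pos x h' A hA
    rw [h, orderTop_zero] at this
    exact WithTop.top_ne_coe this

theorem order_aeval_of_order_neg (x : LaurentSeries k) (hx : x.order < 0) (A : k[X])
    (hA : A ≠ 0) : (aeval x A).order = (A.natDegree : ℤ) * x.order := by
  have h0 := aeval_ne_zero_of_order_ne_zero x hx.ne A hA
  have := orderTop_aeval_of_order_neg x hx A hA
  rw [orderTop_eq_order h0] at this
  exact WithTop.coe_injective this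

theorem order_aeval_of_order_pos (x : LaurentSeries k) (hx : 0 < x.order) (A : k[X])
    (hA : A ≠ 0) : (aeval x A).order = (A.rootMultiplicity 0 : ℤ) * x.order := by
  have h0 := aeval_ne_zero_of_order_ne_zero x hx.ne' A hA
  have := orderTop_aeval_of_order_pos x hx A hA
  rw [orderTop_eq_order h0] at this
  exact WithTop.coe_injective this

theorem order_div_of_ne_zero {a b : LaurentSeries k} (ha : a ≠ 0) (hb : b ≠ 0) :
    (a / b).order = a.order - b.order := by
  have h := HahnSeries.order_mul (div_ne_zero ha hb) hb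
  rw [div_mul_cancel₀ a hb] at h
  linarith

theorem order_rfEval_of_order_neg (x : LaurentSeries k) (hx : x.order < 0) (g : RatFunc k)
    (hg : g ≠ 0) :
    (rfEval g x).order = ((g.num.natDegree : ℤ) - g.denom.natDegree) * x.order := by
  have hn : g.num ≠ 0 := RatFunc.num_ne_zero hg
  have hd : g.denom ≠ 0 := RatFunc.denom_ne_zero g
  rw [rfEval_def, order_div_of_ne_zero (aeval_ne_zero_of_order_ne_zero x hx.ne _ hn)
    (aeval_ne_zero_of_order_ne_zero x hx.ne _ hd), order_aeval_of_order_neg x hx _ hn,
    order_aeval_of_order_neg x hx _ hd]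
  ring

theorem order_rfEval_of_order_pos (x : LaurentSeries k) (hx : 0 < x.order) (g : RatFunc k)
    (hg : g ≠ 0) :
    (rfEval g x).order =
      ((g.num.rootMultiplicity 0 : ℤ) - g.denom.rootMultiplicity 0) * x.order := by
  have hn : g.num ≠ 0 := RatFunc.num_ne_zero hg
  have hd : g.denom ≠ 0 := RatFunc.denom_ne_zero g
  rw [rfEval_def, order_div_of_ne_zero (aeval_ne_zero_of_order_ne_zero x hx.ne' _ hn)
    (aeval_ne_zero_of_order_ne_zero x hx.ne' _ hd), order_aeval_of_order_pos x hx _ hn,
    order_aeval_of_order_pos x hx _ hd]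
  ring

theorem rfEval_ne_zero_of_order_ne_zero (x : LaurentSeries k) (hx : x.order ≠ 0) (g : RatFunc k)
    (hg : g ≠ 0) : rfEval g x ≠ 0 := by
  rw [rfEval_def]
  exact div_ne_zero (aeval_ne_zero_of_order_ne_zero x hx _ (RatFunc.num_ne_zero hg))
    (aeval_ne_zero_of_order_ne_zero x hx _ (RatFunc.denom_ne_zero g))

end Fermat.Agent.S28
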