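import Mathlib
import Fermat.Prelude.Def_ModularCurve_X0

set_option autoImplicit false

/-!
Endgame of the crux of P-S28: for a power series `u = 1 + a q^e + ...` (`a ≠ 0`) over a field in
which `p ≠ 0`, the series `t = q⁻¹ u` satisfies `t(q^p) ≠ t(q)^p`.
-/

namespace Fermat.Agent.S28

open HahnSeries ModularCurve

namespace Endgame

variable {k : Type*} [Field k]

theorem one_add_pow_eq (w : PowerSeries k) (n : ℕ) :
    ∃ g : PowerSeries k, (1 + w) ^ n = 1 + (n : PowerSeries k) * w + w ^ 2 * g := by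
  induction n with
  | zero => exact ⟨0, by simp⟩
  | succ n ih =>
    obtain ⟨g, hg⟩ := ih
    refine ⟨(n : PowerSeries k) + g + w * g, ?_⟩
    rw [pow_succ, hg]
    push_cast
    ring

theorem coeff_laurent (u : PowerSeries k) (m : ℕ) :
    (HahnSeries.single (-1 : ℤ) (1 : k) * HahnSeries.ofPowerSeries ℤ k u).coeff ((m : ℤ) - 1) =
      PowerSeries.coeff m u := by
  rw [HahnSeries.coeff_single_mul, one_mul, sub_neg_eq_add, sub_add_cancel,
    HahnSeries.ofPowerSeries_apply_coeff]

theorem laurent_pow (u : PowerSeries k) (p : ℕ) :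
    (HahnSeries.single (-1 : ℤ) (1 : k) * HahnSeries.ofPowerSeries ℤ k u) ^ p =
      HahnSeries.single (-(p : ℤ)) (1 : k) * HahnSeries.ofPowerSeries ℤ k (u ^ p) := by
  have h : p • (-1 : ℤ) = -(p : ℤ) := by simp
  rw [mul_pow, HahnSeries.single_pow, one_pow, h, ← map_pow]

theorem coeff_laurent_pow (u : PowerSeries k) (p m : ℕ) :
    ((HahnSeries.single (-1 : ℤ) (1 : k) * HahnSeries.ofPowerSeries ℤ k u) ^ p).coeff
      ((m : ℤ) - p) = PowerSeries.coeff m (u ^ p) := by
  rw [laurent_pow, HahnSeries.coeff_single_mul, one_mul, sub_neg_eq_add, sub_add_cancel,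
    HahnSeries.ofPowerSeries_apply_coeff]

end Endgame

open Endgame in
/-- **Endgame.** If `u = 1 + a q^e + ...` with `a ≠ 0` and `p ≠ 0` in `k`, then
`t = q⁻¹ u(q)` does not satisfy `t(q^p) = t(q)^p`. -/
theorem qExpand_ne_pow {k : Type} [Field k] (u : PowerSeries k)
    (hu0 : PowerSeries.constantCoeff u = 1) (hu : u ≠ 1) (p : ℕ) [NeZero p] (hp : 2 ≤ p)
    (hpk : (p : k) ≠ 0) :
    qExpand k p (HahnSeries.single (-1 : ℤ) (1 : k) * HahnSeries.ofPowerSeries ℤ k u) ≠
      (HahnSeries.single (-1 : ℤ) (1 : k) * HahnSeries.ofPowerSeries ℤ k u) ^ p := by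
  classical
  intro heq
  set w : PowerSeries k := u - 1 with hw
  have hw0 : w ≠ 0 := sub_ne_zero.mpr hu
  have hex : ∃ n, PowerSeries.coeff n w ≠ 0 := by
    by_contra hcon
    rw [not_exists] at hcon
    apply hw0
    ext n
    simpa using hcon n
  set e := Nat.find hex with he
  have hea : PowerSeries.coeff e w ≠ 0 := Nat.find_spec hex
  have hlt : ∀ m < e, PowerSeries.coeff m w = 0 := fun m hm => by
    by_contra h
    exact Nat.find_min hex hm h
  have hw_c0 : PowerSeries.coeff 0 w = 0 := by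
    rw [hw, map_sub, PowerSeries.coeff_zero_eq_constantCoeff_apply, hu0]
    simp
  have he1 : 1 ≤ e := by
    rcases Nat.eq_zero_or_pos e with h0 | h0
    · exact absurd (h0 ▸ hw_c0) hea
    · exact h0
  have hcoeff_u : ∀ m, 1 ≤ m → PowerSeries.coeff m u = PowerSeries.coeff m w := by
    intro m hm
    rw [hw, map_sub, PowerSeries.coeff_one, if_neg (by omega), sub_zero]
  -- the coefficient of `q^e` in `u^p`
  have hdvd : PowerSeries.X ^ e ∣ w := PowerSeries.X_pow_dvd_iff.mpr hlt
  obtain ⟨w', hw'⟩ := hdvd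
  obtain ⟨g, hg⟩ := one_add_pow_eq w p
  have hu1 : u = 1 + w := by rw [hw]; ring
  have hup : PowerSeries.coeff e (u ^ p) = (p : k) * PowerSeries.coeff e w := by
    rw [hu1, hg, map_add, map_add, PowerSeries.coeff_one, if_neg (by omega), zero_add]
    have h2 : PowerSeries.coeff e (w ^ 2 * g) = 0 := by
      have : w ^ 2 * g = PowerSeries.X ^ (2 * e) * (w' ^ 2 * g) := by
        rw [hw']; ring
      rw [this, PowerSeries.coeff_X_pow_mul', if_neg (by omega)]
    rw [h2, add_zero]
    have h3 : (p : PowerSeries k) * w = PowerSeries.C (p : k) * w := by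
      rw [map_natCast]
    rw [h3, PowerSeries.coeff_C_mul]
  -- compare the coefficients of `q^(e - p)`
  have hR := coeff_laurent_pow u p e
  rw [← heq] at hR
  have hL : (qExpand k p (HahnSeries.single (-1 : ℤ) (1 : k) *
      HahnSeries.ofPowerSeries ℤ k u)).coeff ((e : ℤ) - p) = 0 := by
    by_cases hpe : p ∣ e
    · obtain ⟨c, hc⟩ := hpe
      have hc1 : 1 ≤ c := by
        rcases Nat.eq_zero_or_pos c with h0 | h0
        · rw [h0, mul_zero] at hc; omega
        · exact h0
      have hce : c < e := by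
        rw [hc]
        nlinarith
      have hidx : (e : ℤ) - p = (p : ℤ) * ((c : ℤ) - 1) := by
        rw [hc]; push_cast; ring
      rw [hidx, qExpand_coeff_mul, coeff_laurent, hcoeff_u c hc1]
      exact hlt c hce
    · apply qExpand_coeff_of_not_dvd
      intro hd
      apply hpe
      have : (p : ℤ) ∣ (e : ℤ) := by
        have h2 := dvd_add hd (dvd_refl (p : ℤ))
        rwa [sub_add_cancel] at h2
      exact_mod_cast this
  rw [hL, hup] at hR
  rcases mul_eq_zero.mp hR.symm with h | h
  · exact hpk h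
  · exact hea h

end Fermat.Agent.S28
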