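import Fermat.Agent.S28.Crux.Cusps

/-!
# P-S28 WP-B (crux), G7: Hauptmodul data over a field from the integral `Hauptmodul r`
-/

set_option autoImplicit false

noncomputable section

open Polynomial HahnSeries ModularCurve

namespace Fermat.Agent.S28

namespace CruxInstance

variable {k : Type} [Field k]

/-- change of coefficients commutes with evaluation of integer polynomials. -/
theorem coeffMap_aeval (x : LaurentSeries ℤ) (A : ℤ[X]) :
    coeffMap (Int.castRingHom k) (aeval x A) =
      aeval (coeffMap (Int.castRingHom k) x) (A.map (Int.castRingHom k)) := by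
  rw [Polynomial.aeval_def, Polynomial.aeval_def, Polynomial.hom_eval₂, Polynomial.eval₂_map]
  congr 1
  exact RingHom.ext_int _ _

theorem coeffMap_C (c : ℤ) :
    coeffMap (Int.castRingHom k) (HahnSeries.C c) = HahnSeries.C ((c : ℤ) : k) := by
  rw [HahnSeries.C_apply, coeffMap_single, HahnSeries.C_apply]
  rfl

/-- the series `q⁻¹ u`. -/
def tOf (u : PowerSeries k) : LaurentSeries k :=
  HahnSeries.single (-1 : ℤ) (1 : k) * HahnSeries.ofPowerSeries ℤ k u

theorem tOf_coeff (u : PowerSeries k) (n : ℤ) :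
    (tOf u).coeff n = (HahnSeries.ofPowerSeries ℤ k u).coeff (n + 1) := by
  unfold tOf
  rw [HahnSeries.coeff_single_mul, one_mul, sub_neg_eq_add]

theorem tOf_coeff_neg_one (u : PowerSeries k) (hu : PowerSeries.constantCoeff u = 1) :
    (tOf u).coeff (-1) = 1 := by
  rw [tOf_coeff, neg_add_cancel, show (0 : ℤ) = ((0 : ℕ) : ℤ) from rfl,
    HahnSeries.ofPowerSeries_apply_coeff, PowerSeries.coeff_zero_eq_constantCoeff_apply, hu]

theorem tOf_coeff_of_lt (u : PowerSeries k) {n : ℤ} (hn : n < -1) : (tOf u).coeff n = 0 := by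
  rw [tOf_coeff]
  exact ofPowerSeries_coeff_of_neg _ (by omega)

theorem tOf_order (u : PowerSeries k) (hu : PowerSeries.constantCoeff u = 1) :
    (tOf u).order = -1 := by
  have hne : tOf u ≠ 0 := by
    intro h
    have := tOf_coeff_neg_one u hu
    rw [h] at this
    simp at this
  apply le_antisymm
  · exact HahnSeries.order_le_of_coeff_ne_zero (by rw [tOf_coeff_neg_one u hu]; exact one_ne_zero)
  · rw [HahnSeries.le_order_iff_forall hne]
    intro n hn
    exact tOf_coeff_of_lt u hn

end CruxInstance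

open CruxInstance

theorem Hauptmodul.coeffMap_t {r : ℕ} [NeZero r] (H : Hauptmodul r) (k : Type) [Field k] :
    coeffMap (Int.castRingHom k) H.t = tOf (H.u.map (Int.castRingHom k)) := by
  unfold Hauptmodul.t tOf
  rw [map_mul, coeffMap_single, coeffMap_ofPowerSeries]
  simp

theorem Hauptmodul.constantCoeff_map_u {r : ℕ} [NeZero r] (H : Hauptmodul r) (k : Type)
    [Field k] : PowerSeries.constantCoeff (H.u.map (Int.castRingHom k)) = 1 := by
  rw [← PowerSeries.coeff_zero_eq_constantCoeff_apply, PowerSeries.coeff_map,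
    PowerSeries.coeff_zero_eq_constantCoeff_apply, H.constantCoeff_u]
  simp

/-- Hauptmodul data over a field in which `r` is invertible. -/
def HData.ofHauptmodul {r : ℕ} [NeZero r] (H : Hauptmodul r) (k : Type) [Field k]
    (hr : (r : k) ≠ 0) : HData k r where
  t := tOf (H.u.map (Int.castRingHom k))
  t_order := tOf_order _ (H.constantCoeff_map_u k)
  t_coeff := tOf_coeff_neg_one _ (H.constantCoeff_map_u k)
  P := H.P.map (Int.castRingHom k)
  P_monic := H.P_monic.map _
  P_natDegree := by rw [H.P_monic.natDegree_map, H.P_natDegree]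
  P_eval_zero := by
    obtain ⟨b, hb⟩ := H.P_eval_zero
    rw [Polynomial.eval_map, ← Polynomial.coeff_zero_eq_eval_zero] at *
    rw [Polynomial.eval₂_at_zero, hb]
    simp only [map_pow, map_natCast]
    exact pow_ne_zero b hr
  c := (H.c : k)
  c_ne_zero := by
    obtain ⟨a, ha⟩ := H.c_eq
    rw [ha]
    push_cast
    exact pow_ne_zero a hr
  h1 := by
    have h := congrArg (coeffMap (Int.castRingHom k)) H.h1
    rw [map_mul, map_pow, coeffMap_jqModC, coeffMap_aeval] at h
    have ht := H.coeffMap_t k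
    unfold Hauptmodul.t at ht
    rw [ht] at h
    exact h
  h2 := by
    have h := congrArg (coeffMap (Int.castRingHom k)) H.h2
    rw [map_mul, map_mul, coeffMap_qExpand, coeffMap_jqModC, coeffMap_aeval, coeffMap_C,
      map_dagger] at h
    have ht := H.coeffMap_t k
    unfold Hauptmodul.t at ht
    rw [ht] at h
    push_cast at h
    exact h

theorem HData.ofHauptmodul_t {r : ℕ} [NeZero r] (H : Hauptmodul r) (k : Type) [Field k]
    (hr : (r : k) ≠ 0) :
    (HData.ofHauptmodul H k hr).t = HahnSeries.single (-1 : ℤ) (1 : k) *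
      HahnSeries.ofPowerSeries ℤ k (H.u.map (Int.castRingHom k)) := rfl

theorem Hauptmodul.map_u_ne_one {r : ℕ} [NeZero r] (H : Hauptmodul r) (k : Type) [Field k]
    (ℓ : ℕ) [Fact ℓ.Prime] [CharP k ℓ] (hℓr : ℓ ≠ r) : H.u.map (Int.castRingHom k) ≠ 1 := by
  intro h
  apply H.u_ne_one ℓ Fact.out hℓr
  letI : Algebra (ZMod ℓ) k := ZMod.algebra k ℓ
  have hinj : Function.Injective (algebraMap (ZMod ℓ) k) := (algebraMap (ZMod ℓ) k).injective
  ext n
  apply hinj
  have hcomp : (algebraMap (ZMod ℓ) k).comp (Int.castRingHom (ZMod ℓ)) = Int.castRingHom k :=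
    RingHom.ext_int _ _
  have h1 := congrArg (PowerSeries.coeff n) h
  rw [PowerSeries.coeff_map, ← hcomp] at h1
  rw [PowerSeries.coeff_map, PowerSeries.coeff_one]
  rw [PowerSeries.coeff_one] at h1
  rw [RingHom.comp_apply] at h1
  rw [h1]
  split_ifs <;> simp

end Fermat.Agent.S28
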