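import Fermat.Agent.S28.Crux.Main
import Fermat.Agent.S28.Crux.Endgame
import Fermat.Agent.S28.Crux.Instance

/-!
# P-S28 WP-B (crux): `j(q^p) ∉ k(j(q))` for primes `p ≠ char k`
-/

set_option autoImplicit false

noncomputable section

open Polynomial IntermediateField HahnSeries ModularCurve

namespace Fermat.Agent.S28

/-- the crux for a fixed auxiliary genus-zero level `r ≠ ℓ`. -/
theorem qExpand_jqModC_not_mem_adjoin_aux {k : Type} [Field k] (ℓ : ℕ) [Fact ℓ.Prime] [CharP k ℓ]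
    [IsAlgClosed k] (p : ℕ) [NeZero p] (hp : p.Prime) (hpℓ : p ≠ ℓ) (E : ModularEquation p)
    {r : ℕ} [NeZero r] (hr2 : 2 ≤ r) (hr : r.Prime) (hrℓ : ℓ ≠ r) (H : Hauptmodul r) :
    qExpand k p (jqModC k) ∉ IntermediateField.adjoin k {jqModC k} := by
  intro hmem
  have hℓ : ℓ.Prime := Fact.out
  have hpk : (p : k) ≠ 0 := by
    intro h0
    have := (CharP.cast_eq_zero_iff k ℓ p).mp h0
    exact hpℓ ((Nat.prime_dvd_prime_iff_eq hℓ hp).mp this).symm
  have hrk : (r : k) ≠ 0 := by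
    intro h0
    have := (CharP.cast_eq_zero_iff k ℓ r).mp h0
    exact hrℓ ((Nat.prime_dvd_prime_iff_eq hℓ hr).mp this)
  haveI : NeZero (p : k) := ⟨hpk⟩
  obtain ⟨ζ0, hζ0⟩ := HasEnoughRootsOfUnity.exists_primitiveRoot k p
  have hζu : IsUnit ζ0 := hζ0.isUnit (NeZero.ne p)
  obtain ⟨ζ, rfl⟩ := hζu
  have hζ : IsPrimitiveRoot ζ p := IsPrimitiveRoot.coe_units_iff.mp hζ0
  set D := HData.ofHauptmodul H k hrk with hD
  have hmain := D.qExpand_t_eq_pow hr2 p hp E ζ hζ hmem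
  rw [hD, HData.ofHauptmodul_t] at hmain
  refine qExpand_ne_pow (H.u.map (Int.castRingHom k)) ?_ (H.map_u_ne_one k ℓ hrℓ) p hp.two_le hpk
    hmain
  rw [← PowerSeries.coeff_zero_eq_constantCoeff_apply, PowerSeries.coeff_map,
    PowerSeries.coeff_zero_eq_constantCoeff_apply, H.constantCoeff_u]
  simp

/-- **The crux (B).** -/
theorem qExpand_jqModC_not_mem_adjoin {k : Type} [Field k] (ℓ : ℕ) [Fact ℓ.Prime] [CharP k ℓ]
    [IsAlgClosed k] (p : ℕ) [NeZero p] (hp : p.Prime) (hpℓ : p ≠ ℓ)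
    (ME : ∀ (q : ℕ) [NeZero q], q.Prime → ModularEquation q) (H2 : Hauptmodul 2)
    (H3 : Hauptmodul 3) :
    qExpand k p (jqModC k) ∉ IntermediateField.adjoin k {jqModC k} := by
  by_cases h2 : ℓ = 2
  · exact qExpand_jqModC_not_mem_adjoin_aux ℓ p hp hpℓ (ME p hp) (r := 3) (by norm_num)
      Nat.prime_three (by omega) H3
  · exact qExpand_jqModC_not_mem_adjoin_aux ℓ p hp hpℓ (ME p hp) (r := 2) (by norm_num)
      Nat.prime_two h2 H2

end Fermat.Agent.S28
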