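import Fermat.Agent.S28.Crux.Setup

/-!
# P-S28 WP-B (crux): Hauptmodul data over a field and the two cusp embeddings
-/

set_option autoImplicit false

noncomputable section

open Polynomial IntermediateField HahnSeries ModularCurve

namespace Fermat.Agent.S28

/-- Hauptmodul data over a field `k`. -/
structure HData (k : Type) [Field k] (r : ℕ) [NeZero r] where
  t : LaurentSeries k
  t_order : t.order = -1
  t_coeff : t.coeff (-1) = 1
  P : k[X]
  P_monic : P.Monic
  P_natDegree : P.natDegree = r + 1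
  P_eval_zero : P.eval 0 ≠ 0
  c : k
  c_ne_zero : c ≠ 0
  h1 : jqModC k * t ^ r = aeval t P
  h2 : qExpand k r (jqModC k) * HahnSeries.C (c ^ r) * t = aeval t (daggerK r c P)

namespace HData

variable {k : Type} [Field k] {r : ℕ} [NeZero r] (D : HData k r)

theorem t_ne_zero : D.t ≠ 0 := by
  intro h
  have := D.t_coeff
  rw [h] at this
  simp at this

theorem t_transcendental : Transcendental k D.t :=
  transcendental_of_order_ne_zero (by rw [D.t_order]; norm_num)

/-- the local parameter at the other cusp: `c / t`. -/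
def x0 : LaurentSeries k := algebraMap k (LaurentSeries k) D.c / D.t

theorem x0_ne_zero : D.x0 ≠ 0 := by
  unfold x0
  refine div_ne_zero ?_ D.t_ne_zero
  rw [Ne, map_eq_zero]
  exact D.c_ne_zero

theorem x0_order : D.x0.order = 1 := by
  unfold x0
  rw [div_eq_mul_inv]
  have hc : algebraMap k (LaurentSeries k) D.c ≠ 0 := by
    rw [Ne, map_eq_zero]; exact D.c_ne_zero
  rw [HahnSeries.order_mul hc (inv_ne_zero D.t_ne_zero), order_inv, D.t_order,
    ← C_eq_algebraMap_laurent, HahnSeries.order_C]
  norm_num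

theorem x0_transcendental : Transcendental k D.x0 :=
  transcendental_of_order_ne_zero (by rw [D.x0_order]; norm_num)

theorem c_div_x0 : algebraMap k (LaurentSeries k) D.c / D.x0 = D.t := by
  unfold x0
  have hc : algebraMap k (LaurentSeries k) D.c ≠ 0 := by
    rw [Ne, map_eq_zero]; exact D.c_ne_zero
  field_simp [D.t_ne_zero]

/-- `J = P(X) / X^r`. -/
def J : RatFunc k := algebraMap k[X] (RatFunc k) D.P / algebraMap k[X] (RatFunc k) (X ^ r)

/-- `J' = P†(X) / (c^r X)`. -/
def J' : RatFunc k :=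
  algebraMap k[X] (RatFunc k) (daggerK r D.c D.P) /
    algebraMap k[X] (RatFunc k) (Polynomial.C (D.c ^ r) * X)

/-- the embedding at the cusp `∞`: `X ↦ t`. -/
def eInf : RatFunc k →ₐ[k] LaurentSeries k := evalHom D.t D.t_transcendental

/-- the embedding at the cusp `0`: `X ↦ c / t`. -/
def eZero : RatFunc k →ₐ[k] LaurentSeries k := evalHom D.x0 D.x0_transcendental

theorem eInf_J : D.eInf D.J = jqModC k := by
  unfold eInf J
  rw [map_div₀, evalHom_algebraMap, evalHom_algebraMap, ← D.h1, map_pow, aeval_X,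
    mul_div_assoc, div_self (pow_ne_zero r D.t_ne_zero), mul_one]

theorem eInf_J' : D.eInf D.J' = qExpand k r (jqModC k) := by
  unfold eInf J'
  rw [map_div₀, evalHom_algebraMap, evalHom_algebraMap, ← D.h2, map_mul, aeval_C, aeval_X,
    ← C_eq_algebraMap_laurent, mul_assoc, mul_div_assoc, div_self, mul_one]
  refine mul_ne_zero ?_ D.t_ne_zero
  rw [C_eq_algebraMap_laurent, Ne, map_eq_zero]
  exact pow_ne_zero r D.c_ne_zero

theorem eZero_J : D.eZero D.J = qExpand k r (jqModC k) := by
  unfold eZero J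
  rw [map_div₀, evalHom_algebraMap, evalHom_algebraMap, map_pow, aeval_X]
  have hdag := aeval_daggerK r D.c D.P (le_of_eq D.P_natDegree) D.t D.t_ne_zero
  rw [← D.h2] at hdag
  have hx : algebraMap k (LaurentSeries k) D.c / D.t = D.x0 := rfl
  rw [hx] at hdag
  have ht := D.t_ne_zero
  have hc : (HahnSeries.C (D.c ^ r) : LaurentSeries k) ≠ 0 := by
    rw [C_eq_algebraMap_laurent, Ne, map_eq_zero]
    exact pow_ne_zero r D.c_ne_zero
  have hx0r : D.x0 ^ r = HahnSeries.C (D.c ^ r) / D.t ^ r := by
    unfold x0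
    rw [div_pow, ← map_pow, C_eq_algebraMap_laurent]
  rw [hx0r]
  have : aeval D.x0 D.P = qExpand k r (jqModC k) * HahnSeries.C (D.c ^ r) * D.t / D.t ^ (r + 1) := by
    rw [hdag]
    field_simp
  rw [this]
  field_simp
  ring

theorem eZero_J' : D.eZero D.J' = jqModC k := by
  unfold eZero J'
  rw [map_div₀, evalHom_algebraMap, evalHom_algebraMap, map_mul, aeval_C, aeval_X]
  have hdag := aeval_daggerK r D.c D.P (le_of_eq D.P_natDegree) D.x0 D.x0_ne_zero
  rw [D.c_div_x0, ← D.h1] at hdag
  rw [hdag]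
  have ht := D.t_ne_zero
  have hx := D.x0_ne_zero
  have hc : algebraMap k (LaurentSeries k) (D.c ^ r) ≠ 0 := by
    rw [Ne, map_eq_zero]
    exact pow_ne_zero r D.c_ne_zero
  have hx0r : D.x0 ^ r * D.t ^ r = algebraMap k (LaurentSeries k) (D.c ^ r) := by
    unfold x0
    rw [div_pow, ← map_pow]
    field_simp
  rw [pow_succ, mul_assoc, mul_comm D.x0, ← mul_assoc, mul_comm (D.x0 ^ r),
    mul_assoc (jqModC k), mul_comm (D.t ^ r), hx0r]
  field_simp

end HData

end Fermat.Agent.S28
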