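import Mathlib
import Fermat.Prelude.Def_ModularCurve_X0ModL
import Fermat.Agent.S28.Laurent
import Fermat.Agent.S28.Orbit
import Fermat.Agent.S28.RatFuncEval

/-!
# P-S28 WP-B, piece G4: if `j(u^p) = R(j(u))` for a rational function `R`, then `deg R = p`

The modular equation factors `Φ_p(X, j(u^p))` over `k((u))` as
`(X - j(u^(p^2))) * ∏_{i<p} (X - j(ζ^i u))`.  Under the hypothesis the first root lies in
`L = k(j(u^p))`, the substitution `u ↦ ζ u` fixes `L` and permutes the remaining `p` roots
cyclically, so `j(u)` has degree exactly `p` over `L`; on the other hand this degree is the degree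
of the rational function `R`.
-/

set_option autoImplicit false

noncomputable section

open Polynomial IntermediateField HahnSeries ModularCurve

namespace Fermat.Agent.S28

variable {k : Type} [Field k]

namespace DegR

/-- Local copy of G1 (degree of `k(y)` over `k(g(y))`). -/
theorem relfinrank_adjoin_rfEval_aux {k : Type*} [Field k] {E : Type*} [Field E] [Algebra k E] (y : E)
    (hy : Transcendental k y) (g : RatFunc k) :
    relfinrank k⟮rfEval g y⟯ k⟮y⟯ = max g.num.natDegree g.denom.natDegree := by
  set e := RatFunc.algEquivOfTranscendental y hy with he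
  set ι : RatFunc k →ₐ[k] E := (k⟮y⟯.val).comp (e : RatFunc k →ₐ[k] k⟮y⟯) with hι
  have hιg : ∀ h : RatFunc k, ι h = rfEval h y := fun h => by
    rw [rfEval_eq_algEquivOfTranscendental y hy]; rfl
  have h1 : (k⟮g⟯ : IntermediateField k (RatFunc k)).map ι = k⟮rfEval g y⟯ := by
    rw [IntermediateField.adjoin_map, Set.image_singleton, hιg]
  have h2 : (⊤ : IntermediateField k (RatFunc k)).map ι = k⟮y⟯ := by
    rw [← AlgHom.fieldRange_eq_map]
    ext x
    constructor
    · rintro ⟨h, rfl⟩
      exact (e h).2
    · intro hx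
      exact ⟨e.symm ⟨x, hx⟩, by simp [hι]⟩
  rw [← h1, ← h2, IntermediateField.relfinrank_map_map, IntermediateField.relfinrank_top_right,
    RatFunc.finrank_eq_max_natDegree]

/-- `rfEval` commutes with algebra homomorphisms of fields. -/
theorem algHom_rfEval {E F : Type*} [Field E] [Field F] [Algebra k E] [Algebra k F]
    (φ : E →ₐ[k] F) (g : RatFunc k) (y : E) : φ (rfEval g y) = rfEval g (φ y) := by
  rw [rfEval_def, rfEval_def, map_div₀, ← Polynomial.aeval_algHom_apply,
    ← Polynomial.aeval_algHom_apply]

/-- `twist ζ` as a `k`-algebra endomorphism. -/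
def twistAlgHom (ζ : kˣ) : LaurentSeries k →ₐ[k] LaurentSeries k where
  __ := twist ζ
  commutes' c := by
    show twist ζ (algebraMap k (LaurentSeries k) c) = algebraMap k (LaurentSeries k) c
    rw [← C_eq_algebraMap_laurent, twist_C]

/-- `twist ζ` fixes `k(j(u^p))` pointwise when `ζ ^ p = 1`. -/
theorem twist_eq_self_of_mem_adjoin (p : ℕ) [NeZero p] (ζ : kˣ) (hζ : ζ ^ p = 1)
    (f : LaurentSeries k) {x : LaurentSeries k} (hx : x ∈ k⟮qExpand k p f⟯) : twist ζ x = x := by
  induction hx using IntermediateField.adjoin_induction with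
  | mem x hx =>
    rw [Set.mem_singleton_iff] at hx
    rw [hx, twist_qExpand_of_pow_eq_one ζ p hζ]
  | algebraMap c => exact (twistAlgHom ζ).commutes c
  | add x y _ _ hx hy => rw [map_add, hx, hy]
  | inv x _ hx => rw [map_inv₀, hx]
  | mul x y _ _ hx hy => rw [map_mul, hx, hy]

theorem finrank_adjoin_jqModC (p : ℕ) [NeZero p] (hp : p.Prime) (E : ModularEquation p)
    (ζ : kˣ) (hζ : IsPrimitiveRoot ζ p)
    (ha : qExpand k (p ^ 2) (jqModC k) ∈ k⟮qExpand k p (jqModC k)⟯) :
    Module.finrank k⟮qExpand k p (jqModC k)⟯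
      (↥k⟮qExpand k p (jqModC k)⟯)⟮jqModC k⟯ = p := by
  set j := jqModC k with hj
  set jp := qExpand k p j with hjp
  set L : IntermediateField k (LaurentSeries k) := k⟮jp⟯ with hL
  -- the automorphism
  let σ : LaurentSeries k →ₐ[L] LaurentSeries k :=
    { (twist ζ : LaurentSeries k →+* LaurentSeries k) with
      commutes' := fun x => twist_eq_self_of_mem_adjoin p ζ hζ.pow_eq_one j x.2 }
  have hσapp : ∀ f, σ f = twist ζ f := fun f => rfl
  let b : ℕ → LaurentSeries k := fun i => twist (ζ ^ i) j
  have hb0 : b 0 = j := by simp only [b, pow_zero, twist_one]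
  have hσb : ∀ i, σ (b i) = b (i + 1) := fun i => by
    rw [hσapp]; simp only [b]; rw [twist_twist, ← pow_succ']
  have hinj : Set.InjOn b (Finset.range p) := by
    intro i hi i' hi' h
    have hi1 := Finset.mem_range.mp hi
    have hi1' := Finset.mem_range.mp hi'
    simp only [b] at h
    refine subst_jqModC_pow_mul_injOn hζ (1 : kˣ) 1 hi1 hi1' ?_
    rw [subst_one_right, subst_one_right, mul_one, mul_one]
    exact h
  -- the polynomial over `L`
  let jpL : L := ⟨jp, mem_adjoin_simple_self k jp⟩
  let φL : Polynomial ℤ →+* L := Polynomial.eval₂RingHom (Int.castRingHom L) jpL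
  have hφ : (algebraMap L (LaurentSeries k)).comp φL = evalY jp := by
    apply Polynomial.ringHom_ext
    · intro n
      simp [φL, evalY]
    · simp [φL, evalY, jpL]
  set P : Polynomial L := E.Φ.map φL with hP
  have hPmap : P.map (algebraMap L (LaurentSeries k)) =
      (X - Polynomial.C (qExpand k (p ^ 2) j)) *
        ∏ i ∈ Finset.range p, (X - Polynomial.C (b i)) := by
    rw [hP, Polynomial.map_map, hφ]
    exact E.factor ζ hζ
  -- split off the rational root
  let aL : L := ⟨qExpand k (p ^ 2) j, ha⟩
  have haL : algebraMap L (LaurentSeries k) aL = qExpand k (p ^ 2) j := rfl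
  have hroot : P.IsRoot aL := by
    have h1 : (P.map (algebraMap L (LaurentSeries k))).IsRoot (algebraMap L (LaurentSeries k) aL) := by
      rw [hPmap, haL, IsRoot.def, eval_mul, eval_sub, eval_X, eval_C, sub_self, zero_mul]
    rw [IsRoot.def, eval_map, Polynomial.eval₂_at_apply] at h1
    exact (map_eq_zero_iff _ (algebraMap L (LaurentSeries k)).injective).mp h1
  set g : Polynomial L := P /ₘ (X - Polynomial.C aL) with hg
  have hPg : (X - Polynomial.C aL) * g = P := mul_divByMonic_eq_iff_isRoot.mpr hroot
  have hgmap : g.map (algebraMap L (LaurentSeries k)) =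
      ∏ i ∈ Finset.range p, (X - Polynomial.C (b i)) := by
    have h2 := congrArg (Polynomial.map (algebraMap L (LaurentSeries k))) hPg
    rw [Polynomial.map_mul, Polynomial.map_sub, Polynomial.map_X, Polynomial.map_C, haL, hPmap]
      at h2
    exact mul_left_cancel₀ (X_sub_C_ne_zero _) h2
  have hmin : minpoly L (b 0) = g :=
    minpoly_eq_of_orbit σ p hp.pos b hσb hinj g hgmap
  have hgdeg : g.natDegree = p := by
    rw [← natDegree_map (algebraMap L (LaurentSeries k)), hgmap,
      natDegree_prod_of_monic _ _ fun i _ => monic_X_sub_C _]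
    simp
  have hgmonic : g.Monic := by
    apply monic_of_injective (algebraMap L (LaurentSeries k)).injective
    rw [hgmap]
    exact monic_prod_of_monic _ _ fun i _ => monic_X_sub_C _
  have hint : IsIntegral L j := by
    refine ⟨g, hgmonic, ?_⟩
    rw [← hb0, ← hmin]
    exact minpoly.aeval L (b 0)
  rw [IntermediateField.adjoin.finrank hint, ← hb0, hmin, hgdeg]

end DegR

/-- **G4.** If `j(u^p) = R(j(u))` for a rational function `R`, then `R` has degree `p`. -/
theorem max_natDegree_eq_of_qExpand_eq (p : ℕ) [NeZero p] (hp : p.Prime) (E : ModularEquation p)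
    (ζ : kˣ) (hζ : IsPrimitiveRoot ζ p) (R : RatFunc k)
    (hR : qExpand k p (jqModC k) = rfEval R (jqModC k)) :
    max R.num.natDegree R.denom.natDegree = p := by
  set j := jqModC k with hj
  set jp := qExpand k p j with hjp
  have hy : Transcendental k j := transcendental_jqModC
  rw [← DegR.relfinrank_adjoin_rfEval_aux j hy R, ← hR]
  -- `j(u^p) ∈ k(j)`
  have hle : k⟮jp⟯ ≤ k⟮j⟯ := by
    rw [IntermediateField.adjoin_simple_le_iff, hR]
    exact rfEval_mem_adjoin j R
  -- `j(u^(p^2)) ∈ k(j(u^p))`
  have ha : qExpand k (p ^ 2) j ∈ k⟮jp⟯ := by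
    have h1 : qExpand k (p ^ 2) j = rfEval R jp := by
      have h2 : qExpand k (p ^ 2) j = qExpand k p (qExpand k p j) := by
        rw [qExpand_qExpand]
        exact qExpand_congr (pow_two p) j
      rw [h2, ← hjp, hR, ← qExpandAlgHomC_apply, DegR.algHom_rfEval, qExpandAlgHomC_apply, ← hR]
    rw [h1]
    exact rfEval_mem_adjoin jp R
  rw [IntermediateField.relfinrank_eq_finrank_of_le hle]
  have hext : IntermediateField.extendScalars hle = (↥k⟮jp⟯)⟮j⟯ := by
    apply IntermediateField.restrictScalars_injective k
    rw [IntermediateField.extendScalars_restrictScalars, IntermediateField.adjoin_adjoin_left]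
    apply le_antisymm
    · exact IntermediateField.adjoin.mono _ _ _ (by simp)
    · rw [IntermediateField.adjoin_le_iff]
      rintro x (hx | hx)
      · rw [Set.mem_singleton_iff] at hx
        rw [hx]
        exact hle (mem_adjoin_simple_self k jp)
      · rw [Set.mem_singleton_iff] at hx
        rw [hx]
        exact mem_adjoin_simple_self k j
  rw [hext]
  exact DegR.finrank_adjoin_jqModC p hp E ζ hζ ha

end Fermat.Agent.S28
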