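import Mathlib
import Fermat.Agent.S28.RatFuncEval

/-!
helper28 (P-S28, WP-B crux, piece G1).

`relfinrank_adjoin_rfEval` : for `y` transcendental over `k` in a field extension `E` and a rational
function `g`, the degree of `k(y)` over `k(g(y))` is `max (deg num g) (deg denom g)`
(transport of `RatFunc.finrank_eq_max_natDegree` along `RatFunc.algEquivOfTranscendental`).
-/

set_option autoImplicit false

noncomputable section

open Polynomial IntermediateField

namespace Fermat.Agent.S28

variable {k : Type*} [Field k]

/-- **(G1)** degree of `k(y) / k(g(y))` for `y` transcendental. -/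
theorem relfinrank_adjoin_rfEval {E : Type*} [Field E] [Algebra k E] (y : E)
    (hy : Transcendental k y) (g : RatFunc k) :
    IntermediateField.relfinrank k⟮rfEval g y⟯ k⟮y⟯
      = max g.num.natDegree g.denom.natDegree := by
  set φ : RatFunc k ≃ₐ[k] k⟮y⟯ := RatFunc.algEquivOfTranscendental y hy with hφ
  set ψ : RatFunc k →ₐ[k] E := (k⟮y⟯).val.comp φ.toAlgHom with hψ
  have hψg : ψ g = rfEval g y := by
    rw [rfEval_eq_algEquivOfTranscendental y hy]
    rfl
  have h1 : (k⟮g⟯ : IntermediateField k (RatFunc k)).map ψ = k⟮rfEval g y⟯ := by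
    rw [IntermediateField.adjoin_map, Set.image_singleton, hψg]
  have h2 : (⊤ : IntermediateField k (RatFunc k)).map ψ = k⟮y⟯ := by
    rw [← AlgHom.fieldRange_eq_map]
    apply le_antisymm
    · rintro x ⟨z, rfl⟩
      exact (φ z).2
    · intro x hx
      exact ⟨φ.symm ⟨x, hx⟩, by simp [hψ]⟩
  rw [← h1, ← h2, IntermediateField.relfinrank_map_map, IntermediateField.relfinrank_top_right,
    RatFunc.finrank_eq_max_natDegree]

/-- variant: `k(y)` has degree `max (deg num g) (deg denom g)` over `k(x)` when `x = g(y)`. -/
theorem relfinrank_adjoin_of_eq_rfEval {E : Type*} [Field E] [Algebra k E] (y x : E)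
    (hy : Transcendental k y) (g : RatFunc k) (hx : x = rfEval g y) :
    IntermediateField.relfinrank k⟮x⟯ k⟮y⟯ = max g.num.natDegree g.denom.natDegree := by
  rw [hx]
  exact relfinrank_adjoin_rfEval y hy g

/-- the degree `[k(y) : k(g(y))]` as a `finrank`. -/
theorem finrank_adjoin_rfEval {E : Type*} [Field E] [Algebra k E] (y : E)
    (hy : Transcendental k y) (g : RatFunc k) :
    Module.finrank k⟮rfEval g y⟯
        (IntermediateField.extendScalars
          (IntermediateField.adjoin_simple_le_iff.mpr (rfEval_mem_adjoin y g)))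
      = max g.num.natDegree g.denom.natDegree := by
  rw [← IntermediateField.relfinrank_eq_finrank_of_le]
  exact relfinrank_adjoin_rfEval y hy g

end Fermat.Agent.S28
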