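/-
helper10 (P-S28, WP-B crux, piece G3).  Claim A: two rational functions `J, J'` whose images under
an embedding `e : k(X) → k((q))` have orders `-1` and `-r`, with `deg J' = r + 1`, generate `k(X)`.
(Lüroth + orders + a degree count.)
-/
import Mathlib
import Fermat.Agent.S28.RatFuncEval
import Fermat.Agent.S28.Crux.Order

set_option autoImplicit false

noncomputable section

open Polynomial IntermediateField HahnSeries

namespace Fermat.Agent.S28

variable {k : Type*} [Field k]

namespace CruxGenerate

/-- Algebra homomorphisms commute with `rfEval`. -/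
theorem map_rfEval {E F : Type*} [Field E] [Algebra k E] [Field F] [Algebra k F] (e : E →ₐ[k] F)
    (g : RatFunc k) (y : E) : e (rfEval g y) = rfEval g (e y) := by
  rw [rfEval_def, rfEval_def, map_div₀, Polynomial.aeval_algHom_apply,
    Polynomial.aeval_algHom_apply]

/-- The image of a constant has order `0`. -/
theorem order_map_C (e : RatFunc k →ₐ[k] LaurentSeries k) (c : k) :
    (e (RatFunc.C c)).order = 0 := by
  have h : e (RatFunc.C c) = algebraMap k (LaurentSeries k) c := by
    rw [← RatFunc.algebraMap_eq_C, e.commutes]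
  rw [h, CruxOrder.algebraMap_eq_single]
  by_cases hc : c = 0
  · simp [hc]
  · exact HahnSeries.order_single hc

theorem order_inv' {x : LaurentSeries k} (hx : x ≠ 0) : (x⁻¹).order = -x.order := by
  have h := order_div_of_ne_zero (one_ne_zero (α := LaurentSeries k)) hx
  rw [one_div, HahnSeries.order_one, zero_sub] at h
  exact h

/-- Every nontrivial intermediate field of `k(X)/k` has a generator whose image under `e` has
negative order. -/
theorem exists_generator_order_neg (e : RatFunc k →ₐ[k] LaurentSeries k)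
    (M : IntermediateField k (RatFunc k)) (hM : M ≠ ⊥) :
    ∃ y : RatFunc k, M = k⟮y⟯ ∧ (e y).order < 0 := by
  set y0 := RatFunc.Luroth.generator M with hy0
  have hMy0 : M = k⟮y0⟯ := RatFunc.Luroth.eq_adjoin_generator
  by_cases h : (e y0).order < 0
  · exact ⟨y0, hMy0, h⟩
  rw [not_lt] at h
  set a0 : k := (e y0).coeff 0 with ha0
  set z : RatFunc k := y0 - RatFunc.C a0 with hz
  have hz0 : z ≠ 0 := by
    intro hz0
    exact RatFunc.Luroth.generator_ne_C hM ⟨a0, sub_eq_zero.mp hz0⟩
  have hez : e z = e y0 - HahnSeries.single 0 a0 := by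
    rw [hz, map_sub, ← RatFunc.algebraMap_eq_C, e.commutes, CruxOrder.algebraMap_eq_single]
  have hez0 : e z ≠ 0 := by
    intro h0
    exact hz0 ((map_eq_zero_iff e e.toRingHom.injective).mp h0)
  have hpos : 0 < (e z).order := by
    by_contra hneg
    rw [not_lt] at hneg
    have hc : (e z).coeff (e z).order ≠ 0 := fun h0 => hez0 (HahnSeries.coeff_order_eq_zero.mp h0)
    generalize (e z).order = n at hneg hc
    apply hc
    rw [hez, HahnSeries.coeff_sub]
    rcases hneg.lt_or_eq with hlt | heq
    · rw [HahnSeries.coeff_eq_zero_of_lt_order (lt_of_lt_of_le hlt h),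
        HahnSeries.coeff_single_of_ne hlt.ne, sub_zero]
    · rw [heq, HahnSeries.coeff_single_same, ← ha0, sub_self]
  refine ⟨z⁻¹, ?_, ?_⟩
  · rw [hMy0]
    apply le_antisymm
    · rw [adjoin_simple_le_iff]
      have h1 : y0 = (z⁻¹)⁻¹ + algebraMap k (RatFunc k) a0 := by
        rw [inv_inv, hz, RatFunc.algebraMap_eq_C, sub_add_cancel]
      rw [h1]
      exact add_mem (inv_mem (mem_adjoin_simple_self k _)) (IntermediateField.algebraMap_mem _ _)
    · rw [adjoin_simple_le_iff]
      apply inv_mem
      rw [hz, ← RatFunc.algebraMap_eq_C]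
      exact sub_mem (mem_adjoin_simple_self k _) (IntermediateField.algebraMap_mem _ _)
  · rw [map_inv₀, order_inv' hez0]
    omega

/-- Degree formula (a special case of G1): the relative degree of `k(y)` over `k(g(y))` for a
transcendental element `y` of `k(X)`. -/
theorem relfinrank_adjoin_rfEval_ratFunc (y : RatFunc k) (hy : Transcendental k y)
    (g : RatFunc k) :
    relfinrank k⟮rfEval g y⟯ k⟮y⟯ = max g.num.natDegree g.denom.natDegree := by
  set φ := RatFunc.algEquivOfTranscendental y hy with hφ
  set ι : RatFunc k →ₐ[k] RatFunc k := (k⟮y⟯).val.comp φ.toAlgHom with hι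
  have h1 : (k⟮g⟯ : IntermediateField k (RatFunc k)).map ι = k⟮rfEval g y⟯ := by
    rw [IntermediateField.adjoin_map, Set.image_singleton]
    congr 2
    rw [rfEval_eq_algEquivOfTranscendental y hy g]
    rfl
  have h2 : (⊤ : IntermediateField k (RatFunc k)).map ι = k⟮y⟯ := by
    rw [← AlgHom.fieldRange_eq_map]
    ext x
    constructor
    · rintro ⟨u, rfl⟩
      exact (φ u).2
    · intro hx
      exact ⟨φ.symm ⟨x, hx⟩, by simp [hι]⟩
  rw [← h1, ← h2, relfinrank_map_map, relfinrank_top_right, RatFunc.finrank_eq_max_natDegree]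

end CruxGenerate

open CruxGenerate

/-- **Claim A** (G3). -/
theorem adjoin_pair_eq_top (e : RatFunc k →ₐ[k] LaurentSeries k) (J J' : RatFunc k) (r : ℕ)
    (hr : 2 ≤ r) (hJ : (e J).order = -1) (hJ' : (e J').order = -(r : ℤ))
    (hdeg : max J'.num.natDegree J'.denom.natDegree ≤ r + 1) :
    IntermediateField.adjoin k {J, J'} = ⊤ := by
  set M := IntermediateField.adjoin k {J, J'} with hMdef
  have hJM : J ∈ M := subset_adjoin k _ (by simp)
  have hJ'M : J' ∈ M := subset_adjoin k _ (by simp)
  have hM : M ≠ ⊥ := by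
    intro h
    rw [h, IntermediateField.mem_bot] at hJM
    obtain ⟨c, hc⟩ := hJM
    rw [RatFunc.algebraMap_eq_C] at hc
    rw [← hc, order_map_C] at hJ
    omega
  obtain ⟨y, hMy, hy⟩ := exists_generator_order_neg e M hM
  have hytr : Transcendental k y := by
    apply RatFunc.transcendental_of_ne_C
    rintro ⟨c, rfl⟩
    rw [order_map_C] at hy
    exact lt_irrefl _ hy
  rw [hMy] at hJM hJ'M
  obtain ⟨g, hg⟩ := exists_rfEval_of_mem_adjoin y J hytr hJM
  obtain ⟨g', hg'⟩ := exists_rfEval_of_mem_adjoin y J' hytr hJ'M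
  have hg0 : g ≠ 0 := by
    rintro rfl
    have : J = 0 := by rw [hg, rfEval_def]; simp
    rw [this, map_zero, HahnSeries.order_zero] at hJ
    omega
  have hg'0 : g' ≠ 0 := by
    rintro rfl
    have : J' = 0 := by rw [hg', rfEval_def]; simp
    rw [this, map_zero, HahnSeries.order_zero] at hJ'
    omega
  have h1 := order_rfEval_of_order_neg (e y) hy g hg0
  rw [← map_rfEval, ← hg, hJ] at h1
  have ho : (e y).order = -1 := by
    have hdvd : (e y).order ∣ 1 := ⟨-((g.num.natDegree : ℤ) - g.denom.natDegree), by linarith⟩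
    have hu := Int.isUnit_iff.mp (isUnit_of_dvd_one hdvd)
    rcases hu with hu | hu
    · omega
    · exact hu
  have h2 := order_rfEval_of_order_neg (e y) hy g' hg'0
  rw [← map_rfEval, ← hg', hJ', ho] at h2
  have ha : r ≤ max g'.num.natDegree g'.denom.natDegree := by omega
  have hG1 := relfinrank_adjoin_rfEval_ratFunc y hytr g'
  rw [← hg'] at hG1
  have hle : k⟮J'⟯ ≤ k⟮y⟯ := adjoin_simple_le_iff.mpr hJ'M
  have htower := relfinrank_mul_finrank_top hle
  rw [RatFunc.finrank_eq_max_natDegree J', hG1] at htower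
  have hb1 : 1 ≤ Module.finrank k⟮y⟯ (RatFunc k) := by
    rw [RatFunc.finrank_eq_max_natDegree y, Nat.one_le_iff_ne_zero]
    intro H
    obtain ⟨c, hc⟩ : ∃ c, y = RatFunc.C c := (RatFunc.eq_C_iff _).mpr (Nat.max_eq_zero_iff.mp H)
    rw [hc, order_map_C] at hy
    exact lt_irrefl _ hy
  have hb : Module.finrank k⟮y⟯ (RatFunc k) = 1 := by
    set a := max g'.num.natDegree g'.denom.natDegree
    set b := Module.finrank k⟮y⟯ (RatFunc k)
    rcases Nat.lt_or_ge b 2 with hb2 | hb2
    · omega
    · have : a * 2 ≤ a * b := Nat.mul_le_mul_left a hb2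
      omega
  rw [hMy]
  exact top_le_iff.mp (relfinrank_eq_one_iff.mp (by rw [relfinrank_top_right]; exact hb))

end Fermat.Agent.S28
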