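import Fermat.Agent.S28.Crux.Cusps
import Fermat.Agent.S28.Crux.Degree
import Fermat.Agent.S28.Crux.Order
import Fermat.Agent.S28.Crux.Generate
import Fermat.Agent.S28.Crux.DegR

/-!
# P-S28 WP-B (crux), main argument

If `j(q^p) ∈ k(j(q))` then the Hauptmodul `t` of an auxiliary genus-zero level `r` satisfies
`t(q^p) = t(q)^p`.
-/

set_option autoImplicit false

noncomputable section

open Polynomial IntermediateField HahnSeries ModularCurve

namespace Fermat.Agent.S28

namespace HData

variable {k : Type} [Field k] {r : ℕ} [NeZero r] (D : HData k r)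

theorem qExpand_aeval (p : ℕ) [NeZero p] (x : LaurentSeries k) (A : k[X]) :
    qExpand k p (aeval x A) = aeval (qExpand k p x) A := by
  have := Polynomial.aeval_algHom_apply (qExpandAlgHomC k p) x A
  simpa using this.symm

theorem qExpand_rfEval (p : ℕ) [NeZero p] (x : LaurentSeries k) (g : RatFunc k) :
    qExpand k p (rfEval g x) = rfEval g (qExpand k p x) := by
  have := algHom_rfEval (qExpandAlgHomC k p) g x
  simpa using this

theorem qExpand_comm (p : ℕ) [NeZero p] (x : LaurentSeries k) :
    qExpand k p (qExpand k r x) = qExpand k r (qExpand k p x) := by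
  haveI : NeZero (p * r) := ⟨mul_ne_zero (NeZero.ne p) (NeZero.ne r)⟩
  haveI : NeZero (r * p) := ⟨mul_ne_zero (NeZero.ne r) (NeZero.ne p)⟩
  rw [qExpand_qExpand, qExpand_qExpand]
  exact qExpand_congr (mul_comm p r) x

theorem leadingCoeff_t : D.t.leadingCoeff = 1 := by
  rw [HahnSeries.leadingCoeff_eq, D.t_order, D.t_coeff]

theorem leadingCoeff_t_pow (n : ℕ) : (D.t ^ n).leadingCoeff = 1 := by
  induction n with
  | zero => simp
  | succ n ih => rw [pow_succ, HahnSeries.leadingCoeff_mul, ih, D.leadingCoeff_t, mul_one]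

theorem order_t_pow (n : ℕ) : (D.t ^ n).order = -(n : ℤ) := by
  rw [HahnSeries.order_pow, D.t_order]
  simp

theorem qExpand_t_order (p : ℕ) [NeZero p] : (qExpand k p D.t).order = -(p : ℤ) := by
  rw [qExpand_order, D.t_order]; ring

theorem qExpand_t_ne_zero (p : ℕ) [NeZero p] : qExpand k p D.t ≠ 0 := by
  rw [Ne, qExpand_eq_zero_iff]; exact D.t_ne_zero

theorem qExpand_t_transcendental (p : ℕ) [NeZero p] : Transcendental k (qExpand k p D.t) :=
  transcendental_of_order_ne_zero (by
    rw [D.qExpand_t_order]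
    have := NeZero.ne p
    simp [this])

/-- Applying `q ↦ q^p` to `j t^r = P(t)`. -/
theorem h1_qExpand (p : ℕ) [NeZero p] :
    qExpand k p (jqModC k) * (qExpand k p D.t) ^ r = aeval (qExpand k p D.t) D.P := by
  rw [← qExpand_aeval, ← D.h1, map_mul, map_pow]

theorem J_transcendental : Transcendental k D.J := by
  intro h
  have h2 : IsAlgebraic k (D.eInf D.J) := h.algHom D.eInf
  rw [D.eInf_J] at h2
  exact transcendental_jqModC h2

theorem rfEval_J (x : LaurentSeries k) (hx : Transcendental k x) :
    rfEval D.J x = aeval x D.P / x ^ r := by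
  unfold J
  rw [rfEval_div x hx, map_pow, aeval_X]

/-- **Main step.**  If `j(q^p)` is a rational function of `j(q)`, then `t(q^p) = t(q)^p`. -/
theorem qExpand_t_eq_pow (hr : 2 ≤ r) (p : ℕ) [NeZero p] (hp : p.Prime) (E : ModularEquation p)
    (ζ : kˣ) (hζ : IsPrimitiveRoot ζ p)
    (hmem : qExpand k p (jqModC k) ∈ k⟮jqModC k⟯) :
    qExpand k p D.t = D.t ^ p := by
  classical
  obtain ⟨R, hR⟩ := exists_rfEval_of_mem_adjoin (jqModC k) _ transcendental_jqModC hmem
  have hdegR := max_natDegree_eq_of_qExpand_eq p hp E ζ hζ R hR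
  set j := jqModC k with hj
  set jp := qExpand k p j with hjp
  set jr := qExpand k r j with hjr
  set tp := qExpand k p D.t with htp
  -- `j(q^{rp}) = R(j(q^r))`
  have hR' : qExpand k r jp = rfEval R jr := by
    rw [hR, qExpand_rfEval]
  -- the images of `J`, `J'` under `q ↦ q^p` lie in the range of `eInf`
  have hJp : D.eInf (rfEval R D.J) = jp := by
    rw [algHom_rfEval, D.eInf_J, ← hR]
  have hJ'p : D.eInf (rfEval R D.J') = qExpand k p jr := by
    rw [algHom_rfEval, D.eInf_J', qExpand_comm, ← hR']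
  -- Step (iii): `t(q^p)` is in the range of `eInf`
  have hdegJ' : max D.J'.num.natDegree D.J'.denom.natDegree ≤ r + 1 := by
    unfold J'
    have hq : (Polynomial.C (D.c ^ r) * X : k[X]) ≠ 0 :=
      mul_ne_zero (by rw [Ne, Polynomial.C_eq_zero]; exact pow_ne_zero r D.c_ne_zero)
        Polynomial.X_ne_zero
    have hdag : (daggerK r D.c D.P).natDegree ≤ r + 1 := by
      unfold daggerK
      refine Polynomial.natDegree_sum_le_of_forall_le _ _ fun i _ => ?_
      refine le_trans (Polynomial.natDegree_C_mul_X_pow_le _ _) (by omega)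
    have hdag0 : daggerK r D.c D.P ≠ 0 := by
      intro h0
      have hc := congrArg (fun A : k[X] => A.coeff 0) h0
      simp only [daggerK, Polynomial.finsetSum_coeff, Polynomial.coeff_C_mul, Polynomial.coeff_X_pow,
        Polynomial.coeff_zero] at hc
      rw [Finset.sum_eq_single (r + 1)] at hc
      · simp only [Nat.sub_self, if_true, mul_one] at hc
        have hlead : D.P.coeff (r + 1) = 1 := by
          have := D.P_monic.coeff_natDegree
          rwa [D.P_natDegree] at this
        rw [hlead, one_mul] at hc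
        exact pow_ne_zero _ D.c_ne_zero hc
      · intro i hi hne
        have : i < r + 2 := Finset.mem_range.mp hi
        have h2 : ¬ (0 = r + 1 - i) := by omega
        simp [h2]
      · intro h; exact absurd (Finset.mem_range.mpr (by omega)) h
    refine max_le ?_ ?_
    · exact le_trans (Polynomial.natDegree_le_of_dvd (RatFunc.num_div_dvd _ hq) hdag0) hdag
    · refine le_trans (Polynomial.natDegree_le_of_dvd (RatFunc.denom_div_dvd _ _) hq) ?_
      refine le_trans (Polynomial.natDegree_C_mul_le _ _) ?_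
      rw [Polynomial.natDegree_X]; omega
  have hgen := adjoin_pair_eq_top D.eInf D.J D.J' r hr
    (by rw [D.eInf_J, jqModC_order])
    (by rw [D.eInf_J', qExpand_order, jqModC_order]; ring) hdegJ'
  set ε : RatFunc k →ₐ[k] LaurentSeries k := (qExpandAlgHomC k p).comp D.eInf with hε
  have hεX0 : ε RatFunc.X = tp := by
    simp only [hε, AlgHom.comp_apply, qExpandAlgHomC_apply]
    rw [eInf, evalHom_X]
  have hX : (RatFunc.X : RatFunc k) ∈ IntermediateField.adjoin k {D.J, D.J'} := by
    rw [hgen]; trivial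
  have hεX : ε RatFunc.X ∈ (IntermediateField.adjoin k {D.J, D.J'}).map ε := ⟨_, hX, rfl⟩
  rw [IntermediateField.adjoin_map] at hεX
  have hle : IntermediateField.adjoin k (ε '' {D.J, D.J'}) ≤ D.eInf.fieldRange := by
    rw [IntermediateField.adjoin_le_iff]
    rintro _ ⟨x, hx, rfl⟩
    rcases hx with rfl | rfl
    · refine ⟨rfEval R D.J, ?_⟩
      show D.eInf (rfEval R D.J) = ε D.J
      rw [hJp]
      simp only [hε, AlgHom.comp_apply, qExpandAlgHomC_apply, D.eInf_J]
      rfl
    · refine ⟨rfEval R D.J', ?_⟩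
      show D.eInf (rfEval R D.J') = ε D.J'
      rw [hJ'p]
      simp only [hε, AlgHom.comp_apply, qExpandAlgHomC_apply, D.eInf_J']
      rfl
  obtain ⟨ρ, hρ⟩ := hle hεX
  have hρt : D.eInf ρ = tp := by rw [← hεX0]; exact hρ
  -- Step (iv): `deg ρ = p`
  have hρtr : Transcendental k ρ := fun h => by
    have h2 := h.algHom D.eInf
    rw [hρt] at h2
    exact D.qExpand_t_transcendental p h2
  have htp0 : tp ≠ 0 := D.qExpand_t_ne_zero p
  have hcomp : rfEval D.J ρ = rfEval R D.J := by
    apply D.eInf.toRingHom.injective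
    show D.eInf (rfEval D.J ρ) = D.eInf (rfEval R D.J)
    rw [algHom_rfEval, hρt, hJp, D.rfEval_J tp (D.qExpand_t_transcendental p), ← D.h1_qExpand p,
      mul_div_assoc, div_self (pow_ne_zero r htp0), mul_one]
  have hdJ0 : max D.J.num.natDegree D.J.denom.natDegree ≠ 0 := by
    intro h0
    obtain ⟨c, hc⟩ := (RatFunc.eq_C_iff D.J).mpr (Nat.max_eq_zero_iff.mp h0)
    apply D.J_transcendental
    rw [hc]
    exact isAlgebraic_algebraMap c
  have hdegρ : max ρ.num.natDegree ρ.denom.natDegree = p := by
    have h1 := relfinrank_adjoin_rfEval D.J D.J_transcendental R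
    have h2 := relfinrank_adjoin_rfEval ρ hρtr D.J
    have h3 := RatFunc.finrank_eq_max_natDegree (f := D.J)
    have h4 := RatFunc.finrank_eq_max_natDegree (f := ρ)
    have le1 : k⟮rfEval R D.J⟯ ≤ k⟮D.J⟯ := by
      rw [IntermediateField.adjoin_simple_le_iff]; exact rfEval_mem_adjoin _ _
    have le2 : k⟮rfEval D.J ρ⟯ ≤ k⟮ρ⟯ := by
      rw [IntermediateField.adjoin_simple_le_iff]; exact rfEval_mem_adjoin _ _
    have t1 := IntermediateField.relfinrank_mul_finrank_top le1
    have t2 := IntermediateField.relfinrank_mul_finrank_top le2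
    rw [h1, h3, hdegR] at t1
    rw [h2, h4, hcomp] at t2
    have := t1.trans t2.symm
    -- p * dJ = dJ * dρ
    rw [mul_comm] at this
    exact (Nat.eq_of_mul_eq_mul_left (Nat.pos_of_ne_zero hdJ0) this).symm
  -- Step (v): `ρ` is a polynomial of degree `p`
  have hρ0 : ρ ≠ 0 := by
    rintro rfl
    exact hρtr isAlgebraic_zero
  have hord := order_rfEval_of_order_neg D.t (by rw [D.t_order]; norm_num) ρ hρ0
  rw [← evalHom_apply D.t D.t_transcendental] at hord
  change (D.eInf ρ).order = _ at hord
  rw [hρt, D.qExpand_t_order, D.t_order] at hord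
  have hnum : ρ.num.natDegree = p := by
    rcases le_total ρ.num.natDegree ρ.denom.natDegree with h | h
    · rw [max_eq_right h] at hdegρ
      have : (ρ.num.natDegree : ℤ) ≤ ρ.denom.natDegree := by exact_mod_cast h
      have hp0 : (0 : ℤ) < p := by exact_mod_cast hp.pos
      nlinarith
    · rwa [max_eq_left h] at hdegρ
  have hden : ρ.denom.natDegree = 0 := by
    have : ((ρ.num.natDegree : ℤ) - ρ.denom.natDegree) = p := by linarith
    rw [hnum] at this
    have : (ρ.denom.natDegree : ℤ) = 0 := by linarith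
    exact_mod_cast this
  have hden1 : ρ.denom = 1 := by
    have hm := RatFunc.monic_denom ρ
    exact hm.natDegree_eq_zero.mp hden
  have hρA' : ρ = algebraMap k[X] (RatFunc k) ρ.num := by
    conv_lhs => rw [← RatFunc.num_div_denom ρ, hden1]
    simp
  set A := ρ.num with hA
  have hρA : ρ = algebraMap k[X] (RatFunc k) A := hρA'
  have hA0 : A ≠ 0 := RatFunc.num_ne_zero hρ0
  -- Step (vi): the cusp `0`
  have hy : D.eZero ρ = aeval D.x0 A := by
    conv_lhs => rw [hρA]
    rw [eZero, evalHom_algebraMap]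
  have hytr : Transcendental k (D.eZero ρ) := fun h =>
    hρtr ((isAlgebraic_algHom_iff D.eZero D.eZero.toRingHom.injective).mp h)
  have hrel : D.eZero (rfEval D.J ρ) = D.eZero (rfEval R D.J) := by rw [hcomp]
  rw [algHom_rfEval, algHom_rfEval, D.eZero_J, ← hR', D.rfEval_J _ hytr, hy,
    ← Polynomial.aeval_comp] at hrel
  have hx0pos : 0 < D.x0.order := by rw [D.x0_order]; norm_num
  have hPA0 : D.P.comp A ≠ 0 := by
    intro h0
    have := congrArg Polynomial.natDegree h0
    rw [Polynomial.natDegree_comp, D.P_natDegree, hnum, Polynomial.natDegree_zero] at this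
    have hp0 := hp.pos
    nlinarith
  have o1 := order_aeval_of_order_pos D.x0 hx0pos A hA0
  have o2 := order_aeval_of_order_pos D.x0 hx0pos (D.P.comp A) hPA0
  have o3 : (qExpand k r jp).order = -((r : ℤ) * p) := by
    rw [qExpand_order, hjp, qExpand_order, jqModC_order]; ring
  have hne1 : aeval D.x0 (D.P.comp A) ≠ 0 :=
    aeval_ne_zero_of_order_ne_zero D.x0 hx0pos.ne' _ hPA0
  have hne2 : aeval D.x0 A ≠ 0 := aeval_ne_zero_of_order_ne_zero D.x0 hx0pos.ne' _ hA0
  have hordrel := congrArg HahnSeries.order hrel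
  rw [order_div_of_ne_zero hne1 (pow_ne_zero r hne2), HahnSeries.order_pow, o1, o2, o3,
    D.x0_order] at hordrel
  have hm_ge : p ≤ A.rootMultiplicity 0 := by
    have hr0 : (0 : ℤ) < r := by exact_mod_cast Nat.pos_of_ne_zero (NeZero.ne r)
    have hn0 : (0 : ℤ) ≤ ((D.P.comp A).rootMultiplicity 0 : ℤ) := by positivity
    have : (r : ℤ) * p ≤ r * (A.rootMultiplicity 0 : ℤ) := by
      simp only [nsmul_eq_mul, mul_one] at hordrel
      linarith
    have := le_of_mul_le_mul_left this hr0
    exact_mod_cast this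
  have hdvd : (X : k[X]) ^ p ∣ A := by
    have h1 := Polynomial.pow_rootMultiplicity_dvd A 0
    rw [map_zero, sub_zero] at h1
    exact dvd_trans (pow_dvd_pow X hm_ge) h1
  obtain ⟨B, hB⟩ := hdvd
  have hB0 : B ≠ 0 := by
    rintro rfl
    exact hA0 (by rw [hB, mul_zero])
  have hBdeg : B.natDegree = 0 := by
    have := congrArg Polynomial.natDegree hB
    rw [Polynomial.natDegree_mul (pow_ne_zero p Polynomial.X_ne_zero) hB0,
      Polynomial.natDegree_X_pow, hnum] at this
    omega
  obtain ⟨a, ha⟩ := Polynomial.natDegree_eq_zero.mp hBdeg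
  -- Step (vii)
  have htpA : tp = D.t ^ p * algebraMap k (LaurentSeries k) a := by
    rw [← hρt]
    conv_lhs => rw [hρA]
    rw [eInf, evalHom_algebraMap, hB, ← ha, map_mul, map_pow, aeval_X, aeval_C]
  have hlead : tp.leadingCoeff = 1 := by
    rw [HahnSeries.leadingCoeff_eq, D.qExpand_t_order]
    have : -(p : ℤ) = (p : ℤ) * (-1) := by ring
    rw [this, htp, qExpand_coeff_mul, D.t_coeff]
  have ha1 : a = 1 := by
    have h2 := congrArg HahnSeries.leadingCoeff htpA
    rw [hlead, HahnSeries.leadingCoeff_mul, D.leadingCoeff_t_pow, one_mul,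
      ← C_eq_algebraMap_laurent, HahnSeries.C_apply, HahnSeries.leadingCoeff_of_single] at h2
    exact h2.symm
  rw [htpA, ha1, map_one, mul_one]

end HData

end Fermat.Agent.S28
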