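import Fermat.Agent.S28.RatFuncEval
import Fermat.Agent.S28.Defs
import Fermat.Agent.S28.Laurent
import Fermat.Prelude.Def_ModularCurve_X0ModL

/-!
# P-S28 WP-B (crux), setup: evaluation homs `RatFunc k → k((q))` and the two cusp embeddings
-/

set_option autoImplicit false

noncomputable section

open Polynomial IntermediateField HahnSeries ModularCurve

namespace Fermat.Agent.S28

variable {k : Type} [Field k]

/-- The `k`-algebra embedding `RatFunc k → E`, `X ↦ x`, for a transcendental `x`. -/
def evalHom {E : Type*} [Field E] [Algebra k E] (x : E) (hx : Transcendental k x) :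
    RatFunc k →ₐ[k] E :=
  (k⟮x⟯.val).comp (RatFunc.algEquivOfTranscendental x hx).toAlgHom

theorem evalHom_apply {E : Type*} [Field E] [Algebra k E] (x : E) (hx : Transcendental k x)
    (g : RatFunc k) : evalHom x hx g = rfEval g x := by
  rw [rfEval_eq_algEquivOfTranscendental x hx]
  rfl

theorem evalHom_X {E : Type*} [Field E] [Algebra k E] (x : E) (hx : Transcendental k x) :
    evalHom x hx RatFunc.X = x := by
  show ((RatFunc.algEquivOfTranscendental x hx) RatFunc.X : E) = x
  rw [RatFunc.algEquivOfTranscendental_X]

theorem evalHom_algebraMap {E : Type*} [Field E] [Algebra k E] (x : E) (hx : Transcendental k x)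
    (A : k[X]) : evalHom x hx (algebraMap k[X] (RatFunc k) A) = aeval x A := by
  show ((RatFunc.algEquivOfTranscendental x hx) (algebraMap k[X] (RatFunc k) A) : E) = aeval x A
  rw [RatFunc.algEquivOfTranscendental_algebraMap]
  simp

theorem evalHom_injective {E : Type*} [Field E] [Algebra k E] (x : E) (hx : Transcendental k x) :
    Function.Injective (evalHom x hx) := (evalHom x hx).toRingHom.injective

/-- `rfEval` of a quotient of polynomials at a transcendental element. -/
theorem rfEval_div {E : Type*} [Field E] [Algebra k E] (x : E) (hx : Transcendental k x)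
    (A B : k[X]) :
    rfEval (algebraMap k[X] (RatFunc k) A / algebraMap k[X] (RatFunc k) B) x
      = aeval x A / aeval x B := by
  rw [← evalHom_apply x hx, map_div₀, evalHom_algebraMap, evalHom_algebraMap]

/-- algebra homs commute with `rfEval`. -/
theorem algHom_rfEval {E E' : Type*} [Field E] [Algebra k E] [Field E'] [Algebra k E']
    (f : E →ₐ[k] E') (g : RatFunc k) (y : E) : f (rfEval g y) = rfEval g (f y) := by
  rw [rfEval_def, rfEval_def, map_div₀, Polynomial.aeval_algHom_apply,
    Polynomial.aeval_algHom_apply]

/-- The polynomial `X^(r+1) * P(c / X)` over the field `k`. -/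
def daggerK (r : ℕ) (c : k) (P : k[X]) : k[X] :=
  ∑ i ∈ Finset.range (r + 2), Polynomial.C (P.coeff i * c ^ i) * X ^ (r + 1 - i)

theorem map_dagger (r : ℕ) (c : ℤ) (P : ℤ[X]) :
    (dagger r c P).map (Int.castRingHom k) = daggerK r (c : k) (P.map (Int.castRingHom k)) := by
  unfold dagger daggerK
  rw [Polynomial.map_sum]
  refine Finset.sum_congr rfl fun i _ => ?_
  simp [Polynomial.coeff_map]

/-- `P†(y) = y^(r+1) * P(c / y)`. -/
theorem aeval_daggerK {E : Type*} [Field E] [Algebra k E] (r : ℕ) (c : k) (P : k[X])
    (hP : P.natDegree ≤ r + 1) (y : E) (hy : y ≠ 0) :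
    aeval y (daggerK r c P) = y ^ (r + 1) * aeval (algebraMap k E c / y) P := by
  unfold daggerK
  rw [map_sum, Polynomial.aeval_eq_sum_range' (n := r + 2) (by omega), Finset.mul_sum]
  refine Finset.sum_congr rfl fun i hi => ?_
  have hi' : i ≤ r + 1 := by
    have := Finset.mem_range.mp hi
    omega
  rw [map_mul, Polynomial.aeval_C, map_pow, Polynomial.aeval_X, Algebra.smul_def, div_pow, map_mul,
    map_pow]
  have : y ^ (r + 1) = y ^ (r + 1 - i) * y ^ i := by rw [← _root_.pow_add]; congr 1; omega
  rw [this]
  field_simp

end Fermat.Agent.S28
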